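import Fermat.Agent.S15.M1.Wp.Basic

/-!
# S15 / M1a : the addition theorem for `℘` (x-coordinate), without residues

Block owner: helper82.

For `u ∉ L` put `z = u/2 + t`, `w = u/2 - t`.  The function `H(t) = Psi z w`,
`Psi z w = -℘ z - ℘ w + ((℘' z - ℘' w)/(℘ z - ℘ w))²/4`, has derivative `0` wherever it is defined
(pure algebra from `℘'' = 6℘² - g₂/2` and `℘'² = 4℘³ - g₂℘ - g₃`), it extends analytically to
`t = u/2` (i.e. `w = 0`) by the explicit formula `Kfun`, with value `℘ u`.  Hence `H = ℘ u` near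
`u/2`, and the polynomial form of the identity propagates to all `t` by the identity theorem.
-/

set_option autoImplicit false

noncomputable section

namespace Fermat.Agent.S15.M1.Wp

open PeriodPair Filter Topology

/-- The right hand side of the addition formula. -/
def Psi (L : PeriodPair) (z w : ℂ) : ℂ :=
  -℘[L] z - ℘[L] w + ((℘'[L] z - ℘'[L] w) / (℘[L] z - ℘[L] w)) ^ 2 / 4

/-- The analytic continuation of `t ↦ Psi (u/2+t) (u/2-t)` at `t = u/2`. -/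
def Kfun (L : PeriodPair) (u t : ℂ) : ℂ :=
  -℘[L] (u / 2 + t) - ℘[L - (0 : ℂ)] (u / 2 - t) +
    (2 * (℘[L] (u / 2 + t) - ℘[L - (0 : ℂ)] (u / 2 - t)) +
      (u / 2 - t) * (℘'[L] (u / 2 + t) - ℘'[L - (0 : ℂ)] (u / 2 - t)) +
      (u / 2 - t) ^ 4 * (℘'[L] (u / 2 + t) - ℘'[L - (0 : ℂ)] (u / 2 - t)) ^ 2 / 4 -
      (u / 2 - t) ^ 2 * (℘[L] (u / 2 + t) - ℘[L - (0 : ℂ)] (u / 2 - t)) ^ 2) /
    (1 - (u / 2 - t) ^ 2 * (℘[L] (u / 2 + t) - ℘[L - (0 : ℂ)] (u / 2 - t))) ^ 2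

/-- The polynomial form of the addition formula. -/
def Gfun (L : PeriodPair) (u t : ℂ) : ℂ :=
  (℘'[L] (u / 2 + t) - ℘'[L] (u / 2 - t)) ^ 2 -
    4 * (℘[L] u + ℘[L] (u / 2 + t) + ℘[L] (u / 2 - t)) * (℘[L] (u / 2 + t) - ℘[L] (u / 2 - t)) ^ 2

variable {L : PeriodPair}

/-- algebra behind `Kfun`. -/
theorem Psi_alg (X y r s w : ℂ) (hw : w ≠ 0) (hB : 1 - w ^ 2 * (X - r) ≠ 0) :
    -X - (r + 1 / w ^ 2) + ((y - (s - 2 / w ^ 3)) / (X - (r + 1 / w ^ 2))) ^ 2 / 4 =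
      -X - r + (2 * (X - r) + w * (y - s) + w ^ 4 * (y - s) ^ 2 / 4 - w ^ 2 * (X - r) ^ 2) /
        (1 - w ^ 2 * (X - r)) ^ 2 := by
  have h1 : X - (r + 1 / w ^ 2) = -(1 - w ^ 2 * (X - r)) / w ^ 2 := by field_simp; ring
  have h2 : y - (s - 2 / w ^ 3) = (2 + w ^ 3 * (y - s)) / w ^ 3 := by field_simp; ring
  rw [h1, h2]
  field_simp
  ring

/-- algebra behind `H' = 0`. -/
theorem deriv_alg (X Y y₁ y₂ g₂ g₃ : ℂ) (h1 : y₁ ^ 2 = 4 * X ^ 3 - g₂ * X - g₃)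
    (h2 : y₂ ^ 2 = 4 * Y ^ 3 - g₂ * Y - g₃) (hD : X - Y ≠ 0) :
    -y₁ - -y₂ + 2 * ((y₁ - y₂) / (X - Y)) *
      ((((6 * X ^ 2 - g₂ / 2) - -(6 * Y ^ 2 - g₂ / 2)) * (X - Y) - (y₁ - y₂) * (y₁ - -y₂)) /
        (X - Y) ^ 2) / 4 = 0 := by
  have key : ((6 * X ^ 2 - g₂ / 2) - -(6 * Y ^ 2 - g₂ / 2)) * (X - Y) - (y₁ - y₂) * (y₁ - -y₂) =
      2 * (X - Y) ^ 3 := by
    linear_combination (-1) * h1 + h2
  rw [key]
  field_simp
  ring

/-- **Leaf C2.** `H' = 0`.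
Recipe: `(hasDerivAt_wp h1).comp_const_add`, `(hasDerivAt_wp h2).comp_const_sub`, same with
`hasDerivAt_wp'` (values `wpp L _`, unfold `wpp`), then `.neg`, `.sub`, `.div` (needs `sub_ne_zero.mpr h3`),
`.pow 2`, `.div_const 4`, `.add`; convert the resulting derivative to `0` with `deriv_alg`
(`L.derivWeierstrassP_sq _ h1`, `L.derivWeierstrassP_sq _ h2`); adapt the shape of `deriv_alg` freely. -/
theorem hasDerivAt_Psi_anti {u t : ℂ} (h1 : u / 2 + t ∉ L.lattice) (h2 : u / 2 - t ∉ L.lattice)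
    (h3 : ℘[L] (u / 2 + t) ≠ ℘[L] (u / 2 - t)) :
    HasDerivAt (fun t => Psi L (u / 2 + t) (u / 2 - t)) 0 t := by
  have a1 : HasDerivAt (fun t => ℘[L] (u / 2 + t)) (℘'[L] (u / 2 + t)) t :=
    HasDerivAt.comp_const_add (u / 2) t (hasDerivAt_wp h1)
  have a2 : HasDerivAt (fun t => ℘[L] (u / 2 - t)) (-℘'[L] (u / 2 - t)) t :=
    HasDerivAt.comp_const_sub (u / 2) t (hasDerivAt_wp h2)
  have b1 : HasDerivAt (fun t => ℘'[L] (u / 2 + t)) (wpp L (u / 2 + t)) t :=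
    HasDerivAt.comp_const_add (u / 2) t (hasDerivAt_wp' h1)
  have b2 : HasDerivAt (fun t => ℘'[L] (u / 2 - t)) (-wpp L (u / 2 - t)) t :=
    HasDerivAt.comp_const_sub (u / 2) t (hasDerivAt_wp' h2)
  have hD : ℘[L] (u / 2 + t) - ℘[L] (u / 2 - t) ≠ 0 := sub_ne_zero.mpr h3
  have hμ := (b1.fun_sub b2).fun_div (a1.fun_sub a2) hD
  have hF := (a1.fun_neg.fun_sub a2).fun_add ((hμ.fun_pow 2).div_const 4)
  have hz := deriv_alg _ _ _ _ L.g₂ L.g₃ (L.derivWeierstrassP_sq _ h1)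
    (L.derivWeierstrassP_sq _ h2) hD
  unfold Psi
  refine hF.congr_deriv ?_
  rw [← hz]
  unfold wpp
  norm_num

/-- **Leaf C1a.** Recipe: `fun_prop`-style: `t ↦ ℘ (u/2+t)`, `℘' (u/2+t)` are analytic at `u/2` because
`u/2 + u/2 = u ∉ L` (`analyticAt_wp`, `analyticAt_wp'`, `AnalyticAt.comp_of_eq`), `t ↦ ℘[L-0] (u/2-t)`,
`℘'[L-0] (u/2-t)` because `u/2 - u/2 = 0` (`L.analyticAt_weierstrassPExcept 0`,
`L.analyticAt_derivWeierstrassPExcept 0`); the denominator is `1 ≠ 0` at `t = u/2`. -/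
theorem analyticAt_Kfun {u : ℂ} (hu : u ∉ L.lattice) : AnalyticAt ℂ (Kfun L u) (u / 2) := by
  have a1 : AnalyticAt ℂ (fun t : ℂ => ℘[L] (u / 2 + t)) (u / 2) :=
    AnalyticAt.comp_of_eq (g := ℘[L]) (f := fun t : ℂ => u / 2 + t) (analyticAt_wp hu)
      (by fun_prop) (by ring)
  have a2 : AnalyticAt ℂ (fun t : ℂ => ℘'[L] (u / 2 + t)) (u / 2) :=
    AnalyticAt.comp_of_eq (g := ℘'[L]) (f := fun t : ℂ => u / 2 + t) (analyticAt_wp' hu)
      (by fun_prop) (by ring)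
  have a3 : AnalyticAt ℂ (fun t : ℂ => ℘[L - (0 : ℂ)] (u / 2 - t)) (u / 2) :=
    AnalyticAt.comp_of_eq (g := ℘[L - (0 : ℂ)]) (f := fun t : ℂ => u / 2 - t)
      (L.analyticAt_weierstrassPExcept 0) (by fun_prop) (by ring)
  have a4 : AnalyticAt ℂ (fun t : ℂ => ℘'[L - (0 : ℂ)] (u / 2 - t)) (u / 2) :=
    AnalyticAt.comp_of_eq (g := ℘'[L - (0 : ℂ)]) (f := fun t : ℂ => u / 2 - t)
      (L.analyticAt_derivWeierstrassPExcept 0) (by fun_prop) (by ring)
  have a5 : AnalyticAt ℂ (fun t : ℂ => u / 2 - t) (u / 2) := by fun_prop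
  unfold Kfun
  refine ((a1.neg.sub a3).add (AnalyticAt.div ?_ ?_ ?_))
  · exact (((analyticAt_const.mul (a1.sub a3)).add (a5.mul (a2.sub a4))).add
      (((a5.pow 4).mul ((a2.sub a4).pow 2)).div analyticAt_const (by norm_num))).sub
      ((a5.pow 2).mul ((a1.sub a3).pow 2))
  · exact (analyticAt_const.sub ((a5.pow 2).mul (a1.sub a3))).pow 2
  · simp

theorem Kfun_self (u : ℂ) : Kfun L u (u / 2) = ℘[L] u := by
  simp only [Kfun, sub_self, add_halves, except_zero]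
  simp
  ring

/-- **Leaf C3.** Recipe: `u/2 + t → u ∉ L` (`eventually_notMem`, continuity); `u/2 - t → 0`, `≠ 0`:
`eventually_ne_notMem 0` pulled back along `t ↦ u/2 - t` (`Tendsto` into `𝓝[≠] 0`:
`tendsto_nhdsWithin_iff`); `‖℘ (u/2-t)‖ → ∞` (`tendsto_norm_wp_atTop (zero_mem _)`) whereas
`℘ (u/2+t) → ℘ u` is bounded (`(analyticAt_wp hu).continuousAt`), so they differ eventually. -/
theorem eventually_good {u : ℂ} (hu : u ∉ L.lattice) :
    ∀ᶠ t in 𝓝[≠] (u / 2), u / 2 + t ∉ L.lattice ∧ u / 2 - t ∉ L.lattice ∧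
      ℘[L] (u / 2 + t) ≠ ℘[L] (u / 2 - t) := by
  have hp : Tendsto (fun t : ℂ => u / 2 + t) (𝓝 (u / 2)) (𝓝 u) := by
    have hc : ContinuousAt (fun t : ℂ => u / 2 + t) (u / 2) := by fun_prop
    have := hc.tendsto
    rwa [add_halves] at this
  have hp' : Tendsto (fun t : ℂ => u / 2 + t) (𝓝[≠] (u / 2)) (𝓝 u) :=
    hp.mono_left nhdsWithin_le_nhds
  have hm : Tendsto (fun t : ℂ => u / 2 - t) (𝓝[≠] (u / 2)) (𝓝[≠] 0) := by
    rw [tendsto_nhdsWithin_iff]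
    constructor
    · have hc : ContinuousAt (fun t : ℂ => u / 2 - t) (u / 2) := by fun_prop
      have := hc.tendsto
      rw [sub_self] at this
      exact this.mono_left nhdsWithin_le_nhds
    · filter_upwards [self_mem_nhdsWithin] with t ht
      exact sub_ne_zero.mpr (Ne.symm ht)
  have h1 : ∀ᶠ t in 𝓝[≠] (u / 2), u / 2 + t ∉ L.lattice := hp'.eventually (eventually_notMem hu)
  have h2 : ∀ᶠ t in 𝓝[≠] (u / 2), u / 2 - t ∉ L.lattice := hm.eventually (eventually_ne_notMem 0)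
  have h3 : Tendsto (fun t : ℂ => ‖℘[L] (u / 2 - t)‖) (𝓝[≠] (u / 2)) atTop :=
    (tendsto_norm_wp_atTop (L := L) (zero_mem _)).comp hm
  have h4 : Tendsto (fun t : ℂ => ‖℘[L] (u / 2 + t)‖) (𝓝[≠] (u / 2)) (𝓝 ‖℘[L] u‖) :=
    ((analyticAt_wp hu).continuousAt.norm.tendsto).comp hp'
  have h5 : ∀ᶠ t in 𝓝[≠] (u / 2), ‖℘[L] (u / 2 + t)‖ < ‖℘[L] u‖ + 1 :=
    h4.eventually (gt_mem_nhds (by linarith))
  have h6 : ∀ᶠ t in 𝓝[≠] (u / 2), ‖℘[L] u‖ + 1 ≤ ‖℘[L] (u / 2 - t)‖ :=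
    h3.eventually (eventually_ge_atTop _)
  filter_upwards [h1, h2, h5, h6] with t a b c d
  refine ⟨a, b, fun h => ?_⟩
  rw [h] at c
  linarith

/-- **Leaf C1b.** Recipe: for `t ≠ u/2` put `w = u/2 - t ≠ 0`; rewrite `℘ w`, `℘' w` by `wp_eq_except`,
`wp'_eq_except` and apply `Psi_alg`; the hypothesis `1 - w^2 (X - r) ≠ 0` holds eventually because this
expression is continuous at `t = u/2` with value `1` (same continuity facts as in `analyticAt_Kfun`). -/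
theorem eventually_Psi_eq_Kfun {u : ℂ} (hu : u ∉ L.lattice) :
    ∀ᶠ t in 𝓝[≠] (u / 2), Psi L (u / 2 + t) (u / 2 - t) = Kfun L u t := by
  have hc : ContinuousAt (fun t : ℂ => 1 - (u / 2 - t) ^ 2 *
      (℘[L] (u / 2 + t) - ℘[L - (0 : ℂ)] (u / 2 - t))) (u / 2) := by
    have c1 : ContinuousAt (fun t : ℂ => ℘[L] (u / 2 + t)) (u / 2) := by
      apply ContinuousAt.comp_of_eq (y := u) (analyticAt_wp hu).continuousAt (by fun_prop)
      exact add_halves u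
    have c2 : ContinuousAt (fun t : ℂ => ℘[L - (0 : ℂ)] (u / 2 - t)) (u / 2) := by
      apply ContinuousAt.comp_of_eq (y := 0) (L.analyticAt_weierstrassPExcept 0).continuousAt
        (by fun_prop)
      exact sub_self _
    fun_prop
  have hne : ∀ᶠ t in 𝓝 (u / 2), 1 - (u / 2 - t) ^ 2 *
      (℘[L] (u / 2 + t) - ℘[L - (0 : ℂ)] (u / 2 - t)) ≠ 0 := by
    apply hc.eventually_ne
    simp
  filter_upwards [hne.filter_mono nhdsWithin_le_nhds, self_mem_nhdsWithin] with t h1 h2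
  have hw : u / 2 - t ≠ 0 := sub_ne_zero.mpr (Ne.symm h2)
  rw [Psi, Kfun, wp_eq_except (w := u / 2 - t), wp'_eq_except (w := u / 2 - t)]
  exact Psi_alg _ _ _ _ _ hw h1

/-- **Leaf C4a** (pure complex analysis). Recipe: `hK.deriv` is analytic at `c` and frequently zero
(`h.frequently`), so eventually zero in `𝓝 c` (`AnalyticAt.frequently_zero_iff_eventually_zero`);
take a ball on which `K` is differentiable (`hK.eventually_analyticAt`) with zero derivative and use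
`IsOpen.is_const_of_deriv_eq_zero Metric.isOpen_ball (convex_ball _ _).isPreconnected`. -/
theorem eventually_eq_of_deriv_eq_zero {K : ℂ → ℂ} {c : ℂ} (hK : AnalyticAt ℂ K c)
    (h : ∀ᶠ t in 𝓝[≠] c, deriv K t = 0) : ∀ᶠ t in 𝓝 c, K t = K c := by
  have h1 : ∀ᶠ t in 𝓝 c, deriv K t = 0 :=
    hK.deriv.frequently_zero_iff_eventually_zero.1 h.frequently
  obtain ⟨ε, hε, hball⟩ := Metric.eventually_nhds_iff_ball.1 (h1.and hK.eventually_analyticAt)
  filter_upwards [Metric.ball_mem_nhds c hε] with t ht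
  exact Metric.isOpen_ball.is_const_of_deriv_eq_zero (convex_ball c ε).isPreconnected
    (fun x hx => (hball x hx).2.differentiableAt.differentiableWithinAt)
    (fun x hx => (hball x hx).1) ht (Metric.mem_ball_self hε)

theorem eventually_Kfun_eq {u : ℂ} (hu : u ∉ L.lattice) :
    ∀ᶠ t in 𝓝 (u / 2), Kfun L u t = ℘[L] u := by
  have h := eventually_eq_of_deriv_eq_zero (analyticAt_Kfun hu) (c := u / 2) ?_
  · simpa [Kfun_self] using h
  · have h1 := eventually_eventually_nhdsWithin.mpr (eventually_Psi_eq_Kfun (L := L) hu)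
    filter_upwards [h1, eventually_good hu, self_mem_nhdsWithin] with t ht hg hne
    rw [isOpen_compl_singleton.nhdsWithin_eq hne] at ht
    exact ((hasDerivAt_Psi_anti hg.1 hg.2.1 hg.2.2).congr_of_eventuallyEq
      (ht.mono fun x hx => hx.symm)).deriv

theorem eventually_Psi_eq {u : ℂ} (hu : u ∉ L.lattice) :
    ∀ᶠ t in 𝓝[≠] (u / 2), Psi L (u / 2 + t) (u / 2 - t) = ℘[L] u := by
  filter_upwards [eventually_Psi_eq_Kfun hu,
    (eventually_Kfun_eq hu).filter_mono nhdsWithin_le_nhds] with t h1 h2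
  rw [h1, h2]

theorem G_alg (X Y y₁ y₂ : ℂ) (hD : X - Y ≠ 0) :
    (y₁ - y₂) ^ 2 - 4 * ((-X - Y + ((y₁ - y₂) / (X - Y)) ^ 2 / 4) + X + Y) * (X - Y) ^ 2 = 0 := by
  field_simp
  ring

theorem eventually_Gfun_eq_zero {u : ℂ} (hu : u ∉ L.lattice) :
    ∀ᶠ t in 𝓝[≠] (u / 2), Gfun L u t = 0 := by
  filter_upwards [eventually_Psi_eq hu, eventually_good hu] with t h1 h2
  have hD : ℘[L] (u / 2 + t) - ℘[L] (u / 2 - t) ≠ 0 := sub_ne_zero.mpr h2.2.2
  rw [Gfun, ← h1, Psi]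
  exact G_alg _ _ _ _ hD

/-- **Leaf C5.** The identity theorem.
Recipe: `V = {t | u/2+t ∉ L ∧ u/2-t ∉ L}` is the complement of the countable set
`(fun l => l - u/2) '' L ∪ (fun l => u/2 - l) '' L` (`countable_lattice`, `Set.Countable.image`), so it is
preconnected (`isPreconnected_compl`); `Gfun L u` is `AnalyticOnNhd` on `V` (`analyticAt_wp`,
`analyticAt_wp'`, `AnalyticAt.comp`, `fun_prop`).  From `eventually_Gfun_eq_zero hu` and
`eventually_good hu` pick `t₁ ≠ u/2` in `V` with `∀ᶠ t in 𝓝 t₁, Gfun L u t = 0`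
(`eventually_eventually_nhdsWithin`, `isOpen_compl_singleton.nhdsWithin_eq`, `Eventually.exists`,
as in the proof of `eventually_Kfun_eq`), then
`AnalyticOnNhd.eqOn_zero_of_preconnected_of_eventuallyEq_zero`. -/
theorem Gfun_eq_zero {u t : ℂ} (hu : u ∉ L.lattice) (h1 : u / 2 + t ∉ L.lattice)
    (h2 : u / 2 - t ∉ L.lattice) : Gfun L u t = 0 := by
  set S : Set ℂ := (fun l => l - u / 2) '' (L.lattice : Set ℂ) ∪
    (fun l => u / 2 - l) '' (L.lattice : Set ℂ) with hS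
  have hScount : S.Countable :=
    ((countable_lattice L).image _).union ((countable_lattice L).image _)
  have hmem : ∀ x : ℂ, x ∈ Sᶜ ↔ (u / 2 + x ∉ L.lattice ∧ u / 2 - x ∉ L.lattice) := by
    intro x
    rw [Set.mem_compl_iff, hS, Set.mem_union, not_or]
    constructor
    · rintro ⟨a1, a2⟩
      refine ⟨fun hx => a1 ⟨u / 2 + x, hx, by ring⟩, fun hx => a2 ⟨u / 2 - x, hx, by ring⟩⟩
    · rintro ⟨a1, a2⟩
      refine ⟨?_, ?_⟩
      · rintro ⟨l, hl, rfl⟩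
        apply a1
        have e : u / 2 + (l - u / 2) = l := by ring
        rw [e]
        exact hl
      · rintro ⟨l, hl, rfl⟩
        apply a2
        have e : u / 2 - (u / 2 - l) = l := by ring
        rw [e]
        exact hl
  have hpre : IsPreconnected Sᶜ := isPreconnected_compl hScount
  have han : AnalyticOnNhd ℂ (Gfun L u) Sᶜ := by
    intro x hx
    obtain ⟨a1, a2⟩ := (hmem x).1 hx
    have b1 : AnalyticAt ℂ (fun t => ℘[L] (u / 2 + t)) x :=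
      AnalyticAt.fun_comp (g := ℘[L]) (f := fun t => u / 2 + t) (analyticAt_wp a1) (by fun_prop)
    have b2 : AnalyticAt ℂ (fun t => ℘[L] (u / 2 - t)) x :=
      AnalyticAt.fun_comp (g := ℘[L]) (f := fun t => u / 2 - t) (analyticAt_wp a2) (by fun_prop)
    have b3 : AnalyticAt ℂ (fun t => ℘'[L] (u / 2 + t)) x :=
      AnalyticAt.fun_comp (g := ℘'[L]) (f := fun t => u / 2 + t) (analyticAt_wp' a1) (by fun_prop)
    have b4 : AnalyticAt ℂ (fun t => ℘'[L] (u / 2 - t)) x :=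
      AnalyticAt.fun_comp (g := ℘'[L]) (f := fun t => u / 2 - t) (analyticAt_wp' a2) (by fun_prop)
    unfold Gfun
    exact ((b3.sub b4).pow 2).sub
      ((analyticAt_const.mul ((analyticAt_const.add b1).add b2)).mul ((b1.sub b2).pow 2))
  have hex : ∃ t₁, (∀ᶠ t in 𝓝 t₁, Gfun L u t = 0) ∧ t₁ ∈ Sᶜ := by
    have e1 := eventually_eventually_nhdsWithin.mpr (eventually_Gfun_eq_zero (L := L) hu)
    have e2 : ∀ᶠ t₁ in 𝓝[≠] (u / 2), (∀ᶠ t in 𝓝 t₁, Gfun L u t = 0) ∧ t₁ ∈ Sᶜ := by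
      filter_upwards [e1, eventually_good hu, self_mem_nhdsWithin] with t₁ ht hg hne
      rw [isOpen_compl_singleton.nhdsWithin_eq hne] at ht
      exact ⟨ht, (hmem t₁).2 ⟨hg.1, hg.2.1⟩⟩
    exact e2.exists
  obtain ⟨t₁, ht₁, ht₁S⟩ := hex
  exact han.eqOn_zero_of_preconnected_of_eventuallyEq_zero hpre ht₁S ht₁ ((hmem t).2 ⟨h1, h2⟩)

/-- **The addition theorem, polynomial form.** -/
theorem addX_poly {z w : ℂ} (hz : z ∉ L.lattice) (hw : w ∉ L.lattice) (hzw : z + w ∉ L.lattice) :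
    (℘'[L] z - ℘'[L] w) ^ 2 =
      4 * (℘[L] (z + w) + ℘[L] z + ℘[L] w) * (℘[L] z - ℘[L] w) ^ 2 := by
  have e1 : (z + w) / 2 + (z - w) / 2 = z := by ring
  have e2 : (z + w) / 2 - (z - w) / 2 = w := by ring
  have h := Gfun_eq_zero (L := L) (u := z + w) (t := (z - w) / 2) hzw (by rwa [e1]) (by rwa [e2])
  rw [Gfun, e1, e2] at h
  exact sub_eq_zero.mp h

/-- `z + w ∉ L` as soon as `℘ z ≠ ℘ w`. -/
theorem add_notMem_of_wp_ne {z w : ℂ} (h : ℘[L] z ≠ ℘[L] w) : z + w ∉ L.lattice := by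
  intro hzw
  apply h
  have : z = -w + (⟨z + w, hzw⟩ : L.lattice) := by simp
  rw [this, L.weierstrassP_add_coe, L.weierstrassP_neg]

/-- **The addition theorem** for `℘`. -/
theorem wp_add_of_ne {z w : ℂ} (hz : z ∉ L.lattice) (hw : w ∉ L.lattice) (h : ℘[L] z ≠ ℘[L] w) :
    ℘[L] (z + w) = ((℘'[L] z - ℘'[L] w) / (℘[L] z - ℘[L] w)) ^ 2 / 4 - ℘[L] z - ℘[L] w := by
  have h1 := addX_poly hz hw (add_notMem_of_wp_ne h)
  have hD : ℘[L] z - ℘[L] w ≠ 0 := sub_ne_zero.mpr h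
  rw [div_pow, h1]
  field_simp
  ring

end Fermat.Agent.S15.M1.Wp
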