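import Fermat.Agent.S15.M1.Wp.AddX

/-!
# S15 / M1a : the addition theorem for `℘'` (y-coordinate), consequences by limits

Block owner: helper82.  Coordinates `(x, y) = (℘, ℘'/2)` on `y² = x³ - (g₂/4) x - g₃/4`.
-/

set_option autoImplicit false

noncomputable section

namespace Fermat.Agent.S15.M1.Wp

open PeriodPair Filter Topology

/-- The slope of the chord through `(℘ z, ℘' z / 2)` and `(℘ w, ℘' w / 2)`. -/
def sl (L : PeriodPair) (z w : ℂ) : ℂ := (℘'[L] z / 2 - ℘'[L] w / 2) / (℘[L] z - ℘[L] w)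

/-- The slope of the tangent at `(℘ w, ℘' w / 2)`. -/
def tl (L : PeriodPair) (w : ℂ) : ℂ := wpp L w / (2 * ℘'[L] w)

variable {L : PeriodPair}

theorem wp_add_sl {z w : ℂ} (hz : z ∉ L.lattice) (hw : w ∉ L.lattice) (h : ℘[L] z ≠ ℘[L] w) :
    ℘[L] (z + w) = sl L z w ^ 2 - ℘[L] z - ℘[L] w := by
  rw [wp_add_of_ne hz hw h, sl]
  ring

/-- algebra behind the `y`-formula. -/
theorem addY_alg (X Y p₁ p₂ g₂ g₃ : ℂ) (h1 : p₁ ^ 2 = 4 * X ^ 3 - g₂ * X - g₃)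
    (h2 : p₂ ^ 2 = 4 * Y ^ 3 - g₂ * Y - g₃) (hD : X - Y ≠ 0) :
    (2 * ((p₁ - p₂) / (X - Y)) * (((6 * X ^ 2 - g₂ / 2) * (X - Y) - (p₁ - p₂) * p₁) / (X - Y) ^ 2) / 4
      - p₁) / 2 =
    -((p₁ / 2 - p₂ / 2) / (X - Y) * ((((p₁ / 2 - p₂ / 2) / (X - Y)) ^ 2 - X - Y) - X) + p₁ / 2) := by
  have key : 2 * (6 * X ^ 2 - g₂ / 2) * (X - Y) - 2 * (p₁ - p₂) * p₁ + (p₁ - p₂) ^ 2
      - 4 * (X - Y) ^ 2 * (2 * X + Y) = 0 := by
    linear_combination (-1) * h1 + h2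
  have e : (2 * ((p₁ - p₂) / (X - Y)) * (((6 * X ^ 2 - g₂ / 2) * (X - Y) - (p₁ - p₂) * p₁) /
      (X - Y) ^ 2) / 4 - p₁) / 2 -
    -((p₁ / 2 - p₂ / 2) / (X - Y) * ((((p₁ / 2 - p₂ / 2) / (X - Y)) ^ 2 - X - Y) - X) + p₁ / 2) =
    (p₁ - p₂) / (8 * (X - Y) ^ 3) * (2 * (6 * X ^ 2 - g₂ / 2) * (X - Y) - 2 * (p₁ - p₂) * p₁ +
      (p₁ - p₂) ^ 2 - 4 * (X - Y) ^ 2 * (2 * X + Y)) := by
    field_simp
    ring
  rw [key, mul_zero] at e
  exact sub_eq_zero.mp e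

/-- **Leaf D.** The `y`-coordinate of the addition theorem.
Recipe: fix `w`.  For `x` near `z`: `x ∉ L` (`eventually_notMem hz`) and `℘ x ≠ ℘ w`
(`(analyticAt_wp hz).continuousAt.eventually_ne h`), so by `wp_add_of_ne`
`(fun x => ℘ (x + w)) =ᶠ[𝓝 z] fun x => ((℘' x - ℘' w)/(℘ x - ℘ w))^2/4 - ℘ x - ℘ w`.
The left side has derivative `℘' (z + w)` (`(hasDerivAt_wp (add_notMem_of_wp_ne h)).comp_add_const`), the
right side is differentiated with `hasDerivAt_wp hz`, `hasDerivAt_wp' hz` (`wpp`), `.sub_const`, `.div`,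
`.pow 2`, `.div_const`, `.sub`; `HasDerivAt.unique` + `HasDerivAt.congr_of_eventuallyEq`; then rewrite
`℘ (z+w)` on the right by `wp_add_sl` and conclude with `addY_alg` (adapt its shape freely). -/
theorem wp'_add_sl {z w : ℂ} (hz : z ∉ L.lattice) (hw : w ∉ L.lattice) (h : ℘[L] z ≠ ℘[L] w) :
    ℘'[L] (z + w) / 2 = -(sl L z w * (℘[L] (z + w) - ℘[L] z) + ℘'[L] z / 2) := by
  have hD : ℘[L] z - ℘[L] w ≠ 0 := sub_ne_zero.mpr h
  have hev : (fun x => ℘[L] (x + w)) =ᶠ[𝓝 z]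
      fun x => ((℘'[L] x - ℘'[L] w) / (℘[L] x - ℘[L] w)) ^ 2 / 4 - ℘[L] x - ℘[L] w := by
    filter_upwards [eventually_notMem hz, (analyticAt_wp hz).continuousAt.eventually_ne h]
      with x hx1 hx2
    exact wp_add_of_ne hx1 hw hx2
  have hl : HasDerivAt (fun x => ℘[L] (x + w)) (℘'[L] (z + w)) z :=
    (hasDerivAt_wp (add_notMem_of_wp_ne h)).comp_add_const z w
  have hq := ((hasDerivAt_wp' hz).sub_const (℘'[L] w)).div
    ((hasDerivAt_wp hz).sub_const (℘[L] w)) hD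
  have hr := ((((hq.pow 2).div_const 4).sub (hasDerivAt_wp hz)).sub_const (℘[L] w))
  have hu := hl.unique (hr.congr_of_eventuallyEq hev)
  have h1 := L.derivWeierstrassP_sq z hz
  have h2 := L.derivWeierstrassP_sq w hw
  have ha := addY_alg (℘[L] z) (℘[L] w) (℘'[L] z) (℘'[L] w) L.g₂ L.g₃ h1 h2 hD
  rw [wp_add_sl hz hw h, sl, ← ha, hu, wpp]
  simp only [Pi.div_apply, Nat.cast_ofNat]
  ring

/-- If `℘ z = ℘ w` and `z + w ∉ L` then `℘' z = ℘' w`. -/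
theorem wp'_eq_of_wp_eq {z w : ℂ} (hz : z ∉ L.lattice) (hw : w ∉ L.lattice)
    (hzw : z + w ∉ L.lattice) (h : ℘[L] z = ℘[L] w) : ℘'[L] z = ℘'[L] w := by
  have h1 := addX_poly hz hw hzw
  rw [h, sub_self] at h1
  have : (℘'[L] z - ℘'[L] w) ^ 2 = 0 := by rw [h1]; ring
  exact sub_eq_zero.mp (pow_eq_zero_iff (two_ne_zero) |>.mp this)

/-- **Leaf E2.** Recipe: suppose `℘' w = 0`.  Put `f x = ℘ x - ℘ w`: analytic at `z`, `f z = 0`, not locally
zero (`not_eventually_wp_eq hz`), `deriv f x = ℘' x` (`L.deriv_weierstrassP`, `deriv_sub_const`).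
For `x` near `z` (`x ∉ L`, `x + w ∉ L`: `eventually_notMem` + continuity of `x ↦ x + w`) `addX_poly` gives
`(℘' x)^2 = B x * (f x)^2`, `B x = 4 (℘ (x+w) + ℘ x + ℘ w)` continuous at `z`, so `‖B x‖ ≤ ‖B z‖ + 1 =: M`
eventually and `‖℘' x‖ ≤ √M ‖f x‖` (`Real.le_sqrt`, `abs_le_of_sq_le_sq`/`pow_le_pow_left₀`…), which
contradicts `not_deriv_le_of_zero`. -/
theorem wp'_ne_zero_of_wp_eq {z w : ℂ} (hz : z ∉ L.lattice) (hw : w ∉ L.lattice)
    (hzw : z + w ∉ L.lattice) (h : ℘[L] z = ℘[L] w) : ℘'[L] w ≠ 0 := by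
  intro hw0
  have hf : AnalyticAt ℂ (fun x => ℘[L] x - ℘[L] w) z := (analyticAt_wp hz).sub analyticAt_const
  have h0 : (fun x => ℘[L] x - ℘[L] w) z = 0 := sub_eq_zero.2 h
  have hne : ¬ ∀ᶠ x in 𝓝 z, (fun x => ℘[L] x - ℘[L] w) x = 0 := by
    intro hh
    exact not_eventually_wp_eq hz (℘[L] w) (hh.mono fun x hx => sub_eq_zero.1 hx)
  have hder : ∀ x, deriv (fun x => ℘[L] x - ℘[L] w) x = ℘'[L] x := by
    intro x
    rw [deriv_sub_const, L.deriv_weierstrassP]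
  have hcadd : ContinuousAt (fun x : ℂ => x + w) z := by fun_prop
  have hxw : ∀ᶠ x in 𝓝 z, x + w ∉ L.lattice := hcadd.eventually (eventually_notMem hzw)
  have hBc : ContinuousAt (fun x => 4 * (℘[L] (x + w) + ℘[L] x + ℘[L] w)) z := by
    have h1 : ContinuousAt (fun x => ℘[L] (x + w)) z :=
      ContinuousAt.comp (f := fun x : ℂ => x + w) (g := ℘[L]) (analyticAt_wp hzw).continuousAt hcadd
    exact continuousAt_const.mul ((h1.add (analyticAt_wp hz).continuousAt).add continuousAt_const)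
  set M : ℝ := ‖4 * (℘[L] (z + w) + ℘[L] z + ℘[L] w)‖ + 1 with hM
  have hM0 : 0 ≤ M := by positivity
  have hB : ∀ᶠ x in 𝓝 z, ‖4 * (℘[L] (x + w) + ℘[L] x + ℘[L] w)‖ < M :=
    hBc.norm.eventually_lt continuousAt_const (by simp [hM])
  refine not_deriv_le_of_zero hf h0 hne (Real.sqrt M) ?_
  refine Filter.Eventually.filter_mono nhdsWithin_le_nhds ?_
  filter_upwards [eventually_notMem hz, hxw, hB] with x hx hx' hxB
  rw [hder]
  have h1 := addX_poly hx hw hx'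
  rw [hw0, sub_zero] at h1
  have h2 : ‖℘'[L] x‖ ^ 2 = ‖4 * (℘[L] (x + w) + ℘[L] x + ℘[L] w)‖ * ‖℘[L] x - ℘[L] w‖ ^ 2 := by
    rw [← norm_pow, h1, norm_mul, norm_pow]
  have h3 : ‖℘'[L] x‖ ^ 2 ≤ (Real.sqrt M * ‖℘[L] x - ℘[L] w‖) ^ 2 := by
    rw [mul_pow, Real.sq_sqrt hM0, h2]
    exact mul_le_mul_of_nonneg_right hxB.le (by positivity)
  exact (pow_le_pow_iff_left₀ (norm_nonneg _) (by positivity) two_ne_zero).1 h3

/-- **`℘` has degree two.** -/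
theorem wp_eq_iff {z w : ℂ} (hz : z ∉ L.lattice) (hw : w ∉ L.lattice) :
    ℘[L] z = ℘[L] w ↔ z - w ∈ L.lattice ∨ z + w ∈ L.lattice := by
  constructor
  · intro h
    by_contra hc
    push Not at hc
    obtain ⟨h1, h2⟩ := hc
    have a1 := wp'_eq_of_wp_eq hz hw h2 h
    have a2 := wp'_ne_zero_of_wp_eq hz hw h2 h
    have h1' : -z + w ∉ L.lattice := fun hh => h1 (by
      have := neg_mem hh
      simpa [sub_eq_add_neg, add_comm] using this)
    have a3 := wp'_eq_of_wp_eq (neg_notMem hz) hw h1' (by rw [L.weierstrassP_neg, h])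
    rw [L.derivWeierstrassP_neg, a1] at a3
    apply a2
    have : (2 : ℂ) * ℘'[L] w = 0 := by linear_combination (-1) * a3
    simpa using this
  · rintro (h | h)
    · have : z = w + (⟨z - w, h⟩ : L.lattice) := by simp
      rw [this, L.weierstrassP_add_coe]
    · have : z = -w + (⟨z + w, h⟩ : L.lattice) := by simp
      rw [this, L.weierstrassP_add_coe, L.weierstrassP_neg]

/-- The zeros of `℘'` are the points of order two. -/
theorem wp'_eq_zero_iff {w : ℂ} (hw : w ∉ L.lattice) : ℘'[L] w = 0 ↔ 2 * w ∈ L.lattice := by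
  constructor
  · intro h
    by_contra hc
    exact wp'_ne_zero_of_wp_eq hw hw (by rwa [← two_mul]) rfl h
  · intro h
    have : w = -w + (⟨2 * w, h⟩ : L.lattice) := by simp; ring
    have h2 : ℘'[L] w = -℘'[L] w := by
      conv_lhs => rw [this, L.derivWeierstrassP_add_coe, L.derivWeierstrassP_neg]
    have : (2 : ℂ) * ℘'[L] w = 0 := by linear_combination h2
    simpa using this

/-- **Leaf E5.** Nonsingularity of `(℘ w, ℘' w / 2)`.
Recipe: suppose `℘' w = 0` and `wpp L w = 0`; put `e = ℘ w`.  From `L.derivWeierstrassP_sq w hw`: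
`4e³ - g₂ e - g₃ = 0`, from `wpp`: `g₂ = 12 e²`, so `g₃ = -8e³` and for every `x ∉ L`
`(℘' x)² = 4 (℘ x - e)² (℘ x + 2e)`.  `2 w ∈ L` by `wp'_eq_zero_iff`.  For `x` in a punctured
neighbourhood of `w`: `x ∉ L`, `℘ x ≠ e` (`eventually_wp_ne hw e`), so `wp_add_of_ne` gives
`℘ (x + w) = (℘ x + 2e) - ℘ x - e = e`; but `℘ (x + w) = ℘ (x - w)` (period `2w`) and `‖℘ (x - w)‖ → ∞`
as `x → w` (`tendsto_norm_wp_atTop (zero_mem _)` composed with `x ↦ x - w`), contradiction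
(`Tendsto.eventually_gt_atTop`, `(𝓝[≠] w).NeBot`). -/
theorem wpp_ne_zero_of_wp'_eq_zero {w : ℂ} (hw : w ∉ L.lattice) (h : ℘'[L] w = 0) :
    wpp L w ≠ 0 := by
  intro hpp
  have hcub := L.derivWeierstrassP_sq w hw
  rw [h] at hcub
  unfold wpp at hpp
  have hg2 : L.g₂ = 12 * ℘[L] w ^ 2 := by linear_combination (-2) * hpp
  have hg3 : L.g₃ = -8 * ℘[L] w ^ 3 := by
    rw [hg2] at hcub
    linear_combination hcub
  have h2w : 2 * w ∈ L.lattice := (wp'_eq_zero_iff hw).1 h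
  have hev : ∀ᶠ x in 𝓝[≠] w, ℘[L] (x - w) = ℘[L] w := by
    filter_upwards [eventually_wp_ne hw (℘[L] w),
      eventually_nhdsWithin_of_eventually_nhds (eventually_notMem hw)] with x hx1 hx2
    have hadd := wp_add_of_ne hx2 hw hx1
    have hper : ℘[L] (x + w) = ℘[L] (x - w) := by
      have := L.weierstrassP_add_coe (x - w) ⟨2 * w, h2w⟩
      rw [← this]
      congr 1
      simp only
      ring
    have hsq := L.derivWeierstrassP_sq x hx2
    rw [hg2, hg3] at hsq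
    have hD : ℘[L] x - ℘[L] w ≠ 0 := sub_ne_zero.mpr hx1
    rw [← hper, hadd, h, sub_zero, div_pow, hsq]
    field_simp
    ring
  have ht0 : Tendsto (fun x => x - w) (𝓝[≠] w) (𝓝[≠] (0 : ℂ)) := by
    rw [tendsto_nhdsWithin_iff]
    refine ⟨?_, ?_⟩
    · have hc : ContinuousAt (fun x : ℂ => x - w) w := by fun_prop
      have := hc.tendsto.mono_left (nhdsWithin_le_nhds (s := {w}ᶜ))
      rwa [sub_self] at this
    · filter_upwards [self_mem_nhdsWithin] with x hx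
      exact sub_ne_zero.mpr hx
  have ht := (tendsto_norm_wp_atTop (L := L) (l := 0) (zero_mem _)).comp ht0
  have hgt := ht.eventually_gt_atTop ‖℘[L] w‖
  obtain ⟨x, hx1, hx2⟩ := (hgt.and hev).exists
  simp only [Function.comp_apply] at hx1
  rw [hx2] at hx1
  exact lt_irrefl _ hx1

/-- **Leaf E6a.** Duplication formula, `x`-coordinate.
Recipe: `℘' w ≠ 0` by `wp'_eq_zero_iff`.  For `z ≠ w` near `w` (`z ∉ L`, `z + w ∉ L`) divide `addX_poly` by
`(z - w)^2`: `(slope ℘' w z)^2 = 4 (℘ (z+w) + ℘ z + ℘ w) (slope ℘ w z)^2`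
(`slope_def_field`).  Let `z → w`: `(hasDerivAt_wp' hw).tendsto_slope`, `(hasDerivAt_wp hw).tendsto_slope`
(`hasDerivAt_iff_tendsto_slope`), continuity of `℘` at `2w = w + w` and `w`; `tendsto_nhds_unique` gives
`(wpp L w)^2 = 4 (℘ (2w) + 2 ℘ w) (℘' w)^2`; finish by `field_simp`. -/
theorem wp_two_mul {w : ℂ} (hw : w ∉ L.lattice) (h2 : 2 * w ∉ L.lattice) :
    ℘[L] (2 * w) = tl L w ^ 2 - ℘[L] w - ℘[L] w := by
  have hp : ℘'[L] w ≠ 0 := fun h => h2 ((wp'_eq_zero_iff hw).1 h)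
  have hww : w + w ∉ L.lattice := by rwa [← two_mul]
  have s1 : Tendsto (slope ℘'[L] w) (𝓝[≠] w) (𝓝 (wpp L w)) :=
    hasDerivAt_iff_tendsto_slope.1 (hasDerivAt_wp' hw)
  have s2 : Tendsto (slope ℘[L] w) (𝓝[≠] w) (𝓝 (℘'[L] w)) :=
    hasDerivAt_iff_tendsto_slope.1 (hasDerivAt_wp hw)
  have c1 : Tendsto (fun z => ℘[L] (z + w)) (𝓝[≠] w) (𝓝 (℘[L] (w + w))) := by
    have hc : ContinuousAt (fun z => ℘[L] (z + w)) w :=
      ContinuousAt.comp_of_eq (y := w + w) (analyticAt_wp hww).continuousAt (by fun_prop) rfl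
    exact hc.tendsto.mono_left nhdsWithin_le_nhds
  have c2 : Tendsto (fun z => ℘[L] z) (𝓝[≠] w) (𝓝 (℘[L] w)) :=
    (analyticAt_wp hw).continuousAt.tendsto.mono_left nhdsWithin_le_nhds
  have e1 : ∀ᶠ z in 𝓝[≠] w, (slope ℘'[L] w z) ^ 2 =
      4 * (℘[L] (z + w) + ℘[L] z + ℘[L] w) * (slope ℘[L] w z) ^ 2 := by
    have n1 : ∀ᶠ z in 𝓝 w, z ∉ L.lattice := eventually_notMem hw
    have n2 : ∀ᶠ z in 𝓝 w, z + w ∉ L.lattice := by
      have hc : ContinuousAt (fun z : ℂ => z + w) w := by fun_prop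
      exact hc.eventually (eventually_notMem hww)
    filter_upwards [n1.filter_mono nhdsWithin_le_nhds, n2.filter_mono nhdsWithin_le_nhds]
      with z a b
    rw [slope_def_field, slope_def_field, div_pow, div_pow, addX_poly a hw b]
    ring
  have l1 : Tendsto (fun z => (slope ℘'[L] w z) ^ 2) (𝓝[≠] w) (𝓝 (wpp L w ^ 2)) := s1.pow 2
  have l2 : Tendsto (fun z => 4 * (℘[L] (z + w) + ℘[L] z + ℘[L] w) * (slope ℘[L] w z) ^ 2)
      (𝓝[≠] w) (𝓝 (4 * (℘[L] (w + w) + ℘[L] w + ℘[L] w) * ℘'[L] w ^ 2)) :=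
    (((c1.add c2).add_const _).const_mul 4).mul (s2.pow 2)
  have key := tendsto_nhds_unique (l1.congr' e1) l2
  rw [two_mul, tl, div_pow, key]
  field_simp
  ring

/-- **Leaf E6b.** Duplication formula, `y`-coordinate.
Recipe: for `z` in a punctured neighbourhood of `w`: `z ∉ L`, `℘ z ≠ ℘ w` (`eventually_wp_ne hw _`), so
`wp'_add_sl` holds; `sl L z w = (slope ℘' w z / 2) / slope ℘ w z → wpp L w / 2 / ℘' w = tl L w`
(`℘' w ≠ 0` by `wp'_eq_zero_iff`); `℘ (z+w) → ℘ (2w)`, `℘' (z+w) → ℘' (2w)`, `℘ z → ℘ w`, `℘' z → ℘' w` by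
continuity (`analyticAt_wp`, `analyticAt_wp'`); `tendsto_nhds_unique`. -/
theorem wp'_two_mul {w : ℂ} (hw : w ∉ L.lattice) (h2 : 2 * w ∉ L.lattice) :
    ℘'[L] (2 * w) / 2 = -(tl L w * (℘[L] (2 * w) - ℘[L] w) + ℘'[L] w / 2) := by
  have hp : ℘'[L] w ≠ 0 := fun h => h2 ((wp'_eq_zero_iff hw).1 h)
  have hww : w + w ∉ L.lattice := by rwa [← two_mul]
  have hev : ∀ᶠ z in 𝓝[≠] w,
      ℘'[L] (z + w) / 2 = -(sl L z w * (℘[L] (z + w) - ℘[L] z) + ℘'[L] z / 2) := by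
    filter_upwards [eventually_wp_ne hw (℘[L] w),
      (eventually_notMem hw).filter_mono nhdsWithin_le_nhds] with z h1 h3
    exact wp'_add_sl h3 hw h1
  have hadd : Tendsto (fun z : ℂ => z + w) (𝓝[≠] w) (𝓝 (w + w)) :=
    ((continuous_id.add continuous_const).tendsto w).mono_left nhdsWithin_le_nhds
  have l1 : Tendsto (fun z => ℘'[L] (z + w)) (𝓝[≠] w) (𝓝 (℘'[L] (w + w))) :=
    (analyticAt_wp' hww).continuousAt.tendsto.comp hadd
  have l2 : Tendsto (fun z => ℘[L] (z + w)) (𝓝[≠] w) (𝓝 (℘[L] (w + w))) :=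
    (analyticAt_wp hww).continuousAt.tendsto.comp hadd
  have l3 : Tendsto ℘[L] (𝓝[≠] w) (𝓝 (℘[L] w)) :=
    (analyticAt_wp hw).continuousAt.tendsto.mono_left nhdsWithin_le_nhds
  have l4 : Tendsto ℘'[L] (𝓝[≠] w) (𝓝 (℘'[L] w)) :=
    (analyticAt_wp' hw).continuousAt.tendsto.mono_left nhdsWithin_le_nhds
  have s1 : Tendsto (slope ℘'[L] w) (𝓝[≠] w) (𝓝 (wpp L w)) := (hasDerivAt_wp' hw).tendsto_slope
  have s2 : Tendsto (slope ℘[L] w) (𝓝[≠] w) (𝓝 (℘'[L] w)) := (hasDerivAt_wp hw).tendsto_slope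
  have l5 : Tendsto (fun z => sl L z w) (𝓝[≠] w) (𝓝 (tl L w)) := by
    have h5 : Tendsto (fun z => slope ℘'[L] w z / 2 / slope ℘[L] w z) (𝓝[≠] w)
        (𝓝 (wpp L w / 2 / ℘'[L] w)) := (s1.div_const 2).div s2 hp
    have h6 : tl L w = wpp L w / 2 / ℘'[L] w := by
      rw [tl]
      field_simp
    rw [h6]
    refine h5.congr' ?_
    filter_upwards [self_mem_nhdsWithin, eventually_wp_ne hw (℘[L] w)] with z hz hne
    have hzw : z - w ≠ 0 := sub_ne_zero.2 hz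
    have hne' : ℘[L] z - ℘[L] w ≠ 0 := sub_ne_zero.2 hne
    rw [slope_def_field, slope_def_field, sl]
    field_simp
  have lhs := l1.div_const 2
  have rhs := ((l5.mul (l2.sub l3)).add (l4.div_const 2)).neg
  have hfin := tendsto_nhds_unique (lhs.congr' hev) rhs
  rw [two_mul]
  exact hfin

end Fermat.Agent.S15.M1.Wp
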