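import Mathlib

/-!
# S15 / M1a : the Weierstrass `℘` function, basic calculus (pure Mathlib)

Block owner: helper82.  Everything is stated for a `PeriodPair` `L` of Mathlib
(`Mathlib/Analysis/SpecialFunctions/Elliptic/Weierstrass.lean`).

* `hasDerivAt_wp`, `hasDerivAt_wp'` : `℘' = d℘/dz`, `℘'' = 6 ℘² - g₂/2` off the lattice;
* `℘`, `℘'` are not locally constant;
* `‖℘ z‖ → ∞` at the lattice points;
* complements of countable sets are preconnected; the lattice is countable;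
* `not_isBigO_deriv` : the logarithmic derivative is unbounded at a zero.
-/

set_option autoImplicit false

noncomputable section

namespace Fermat.Agent.S15.M1.Wp

open PeriodPair Filter Topology

variable (L : PeriodPair)

/-- `℘'' = 6 ℘² - g₂/2`. -/
def wpp (z : ℂ) : ℂ := 6 * ℘[L] z ^ 2 - L.g₂ / 2

theorem countable_lattice : (L.lattice : Set ℂ).Countable :=
  countable_of_Lindelof_of_discrete (X := L.lattice)

theorem isOpen_compl_lattice : IsOpen (L.lattice : Set ℂ)ᶜ := L.isClosed_lattice.isOpen_compl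

theorem isPreconnected_compl {s : Set ℂ} (hs : s.Countable) : IsPreconnected sᶜ :=
  (Set.Countable.isConnected_compl_of_one_lt_rank (by simp) hs).2

variable {L}

theorem neg_notMem {z : ℂ} (hz : z ∉ L.lattice) : -z ∉ L.lattice := fun h => hz (by simpa using neg_mem h)

theorem eventually_notMem {z : ℂ} (hz : z ∉ L.lattice) : ∀ᶠ x in 𝓝 z, x ∉ L.lattice :=
  (isOpen_compl_lattice L).mem_nhds hz

/-- Near a lattice point there is no other lattice point. -/
theorem eventually_ne_notMem (l : ℂ) : ∀ᶠ x in 𝓝[≠] l, x ∉ L.lattice := by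
  filter_upwards [self_mem_nhdsWithin, mem_nhdsWithin_of_mem_nhds
    (L.compl_lattice_sdiff_singleton_mem_nhds l)] with w hw hw'
  intro h
  exact hw' ⟨h, hw⟩

theorem hasDerivAt_wp {z : ℂ} (hz : z ∉ L.lattice) : HasDerivAt ℘[L] (℘'[L] z) z := by
  have h := ((L.analyticOnNhd_weierstrassP z hz).differentiableAt).hasDerivAt
  rwa [L.deriv_weierstrassP] at h

theorem analyticAt_wp {z : ℂ} (hz : z ∉ L.lattice) : AnalyticAt ℂ ℘[L] z :=
  L.analyticOnNhd_weierstrassP z hz

theorem analyticAt_wp' {z : ℂ} (hz : z ∉ L.lattice) : AnalyticAt ℂ ℘'[L] z :=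
  L.analyticOnNhd_derivWeierstrassP z hz

theorem wp_eq_except {w : ℂ} : ℘[L] w = ℘[L - (0 : ℂ)] w + 1 / w ^ 2 := by
  have := L.weierstrassPExcept_def 0 w
  simp only [ZeroMemClass.coe_zero, sub_zero] at this
  rw [this]; simp

theorem wp'_eq_except {w : ℂ} : ℘'[L] w = ℘'[L - (0 : ℂ)] w - 2 / w ^ 3 := by
  have := L.derivWeierstrassPExcept_def 0 w
  simp only [ZeroMemClass.coe_zero, sub_zero] at this
  rw [this]; ring

theorem except_zero : ℘[L - (0 : ℂ)] 0 = 0 := by
  have := L.weierstrassPExcept_def 0 0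
  simpa using this

/-- **Leaf B1.** `‖℘ z‖ → ∞` at a lattice point.
Recipe: by periodicity (`weierstrassP_sub_coe`) reduce to `l = 0` (or work directly with
`L.weierstrassPExcept_add ⟨l, hl⟩`): `℘ z = ℘[L - l] z + (1/(z-l)^2 - 1/l^2)`, the first term is
continuous at `l` (`L.analyticAt_weierstrassPExcept l`), so bounded near `l`, and
`‖1/(z-l)^2‖ → ∞` (`tendsto_norm_inv_nhdsNE_zero_atTop`-type lemmas, `Filter.Tendsto.inv_tendsto_nhdsGT_zero`,
`tendsto_norm_sub_self_nhdsNE`). -/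
theorem tendsto_norm_wp_atTop {l : ℂ} (hl : l ∈ L.lattice) :
    Tendsto (fun z => ‖℘[L] z‖) (𝓝[≠] l) atTop := by
  have h : meromorphicOrderAt ℘[L] l < 0 := by
    rw [L.order_weierstrassP l hl]
    decide
  exact tendsto_norm_cobounded_atTop.comp (tendsto_cobounded_of_meromorphicOrderAt_neg h)

/-- **Leaf B2.** `℘'` is not locally zero.
Recipe: identity theorem `AnalyticOnNhd.eqOn_zero_of_preconnected_of_eventuallyEq_zero` for
`L.analyticOnNhd_derivWeierstrassP` on `(L.lattice)ᶜ` (`isPreconnected_compl (countable_lattice L)`)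
gives `℘' = 0` off the lattice; then `℘'[L - 0] w = 2 / w ^ 3` for `w` near `0`, `w ≠ 0`
(`wp'_eq_except`, `eventually_ne_notMem`), impossible since the left side is continuous at `0`
(`L.analyticAt_derivWeierstrassPExcept 0`) and the right side is unbounded. -/
theorem not_eventually_wp'_eq_zero {z : ℂ} (hz : z ∉ L.lattice) :
    ¬ ∀ᶠ x in 𝓝 z, ℘'[L] x = 0 := by
  intro h
  have hzero : Set.EqOn ℘'[L] 0 (L.lattice : Set ℂ)ᶜ :=
    L.analyticOnNhd_derivWeierstrassP.eqOn_zero_of_preconnected_of_eventuallyEq_zero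
      (isPreconnected_compl (countable_lattice L)) hz h
  have hconst : ∀ x, x ∉ L.lattice → ℘[L] x = ℘[L] z := by
    intro x hx
    exact (isOpen_compl_lattice L).is_const_of_deriv_eq_zero
      (isPreconnected_compl (countable_lattice L)) L.differentiableOn_weierstrassP
      (by rw [L.deriv_weierstrassP]; exact hzero) hx hz
  have ht := tendsto_norm_wp_atTop (L := L) (l := 0) (zero_mem _)
  have h2 : ∀ᶠ x in 𝓝[≠] (0 : ℂ), ‖℘[L] z‖ = ‖℘[L] x‖ :=
    (eventually_ne_notMem (L := L) 0).mono (fun x hx => by rw [hconst x hx])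
  have h3 : Tendsto (fun x => ‖℘[L] x‖) (𝓝[≠] (0 : ℂ)) (𝓝 ‖℘[L] z‖) :=
    tendsto_const_nhds.congr' h2
  exact not_tendsto_nhds_of_tendsto_atTop ht _ h3

/-- `℘` is not locally constant. -/
theorem not_eventually_wp_eq {z : ℂ} (hz : z ∉ L.lattice) (c : ℂ) :
    ¬ ∀ᶠ x in 𝓝 z, ℘[L] x = c := by
  intro h
  apply not_eventually_wp'_eq_zero hz
  have h2 := h.eventually_nhds
  filter_upwards [h2] with x hx
  have : deriv ℘[L] x = 0 := by
    have : ℘[L] =ᶠ[𝓝 x] fun _ => c := hx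
    rw [this.deriv_eq]; simp
  rwa [L.deriv_weierstrassP] at this

/-- The values of `℘` are isolated. -/
theorem eventually_wp_ne {z : ℂ} (hz : z ∉ L.lattice) (c : ℂ) :
    ∀ᶠ x in 𝓝[≠] z, ℘[L] x ≠ c := by
  have ha : AnalyticAt ℂ (fun x => ℘[L] x - c) z := (analyticAt_wp hz).sub analyticAt_const
  rcases ha.eventually_eq_zero_or_eventually_ne_zero with h | h
  · exact absurd (h.mono fun x hx => sub_eq_zero.mp hx) (not_eventually_wp_eq hz c)
  · exact h.mono fun x hx hx' => hx (sub_eq_zero.mpr hx')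

/-- **Leaf B3.** `℘'' = 6 ℘² - g₂/2`.
Recipe: let `D x = deriv ℘' x - wpp L x`, analytic at `z`.  Differentiating
`L.derivWeierstrassP_sq` (valid on the open set `(L.lattice)ᶜ`, use `eventually_notMem` and
`Filter.EventuallyEq.deriv_eq`/`HasDerivAt.unique`) gives `2 ℘' x * deriv ℘' x = (12 ℘ x ^ 2 - g₂) ℘' x`,
i.e. `℘' x * D x = 0` for all `x ∉ L`.  By `AnalyticAt.eventually_eq_zero_or_eventually_ne_zero`
for `℘'` at `z` and `not_eventually_wp'_eq_zero`, `℘' x ≠ 0` on a punctured neighbourhood, so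
`D = 0` there, and `D z = 0` by continuity
(`AnalyticAt.frequently_zero_iff_eventually_zero` + `Eventually.self_of_nhds`). -/
theorem hasDerivAt_wp' {z : ℂ} (hz : z ∉ L.lattice) : HasDerivAt ℘'[L] (wpp L z) z := by
  have hrel : ∀ x, x ∉ L.lattice → ℘'[L] x * (deriv ℘'[L] x - wpp L x) = 0 := by
    intro x hx
    have h1 : HasDerivAt ℘'[L] (deriv ℘'[L] x) x :=
      (analyticAt_wp' hx).differentiableAt.hasDerivAt
    have h2 := hasDerivAt_wp hx
    have hl : HasDerivAt (fun y => ℘'[L] y ^ 2) (2 * ℘'[L] x * deriv ℘'[L] x) x := by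
      simpa using h1.fun_pow 2
    have hr : HasDerivAt (fun y => 4 * ℘[L] y ^ 3 - L.g₂ * ℘[L] y - L.g₃)
        (4 * (3 * ℘[L] x ^ 2 * ℘'[L] x) - L.g₂ * ℘'[L] x) x := by
      have := (((h2.fun_pow 3).const_mul 4).sub (h2.const_mul L.g₂)).sub_const L.g₃
      simpa using this
    have heq : (fun y => ℘'[L] y ^ 2) =ᶠ[𝓝 x]
        fun y => 4 * ℘[L] y ^ 3 - L.g₂ * ℘[L] y - L.g₃ := by
      filter_upwards [eventually_notMem hx] with y hy
      exact L.derivWeierstrassP_sq y hy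
    have h3 := hl.unique (hr.congr_of_eventuallyEq heq)
    unfold wpp
    linear_combination (1 / 2) * h3
  have hD : AnalyticAt ℂ (fun x => deriv ℘'[L] x - wpp L x) z := by
    refine (analyticAt_wp' hz).deriv.sub ?_
    unfold wpp
    exact (analyticAt_const.mul ((analyticAt_wp hz).pow 2)).sub analyticAt_const
  have hne : ∀ᶠ x in 𝓝[≠] z, ℘'[L] x ≠ 0 := by
    rcases (analyticAt_wp' hz).eventually_eq_zero_or_eventually_ne_zero with h | h
    · exact absurd h (not_eventually_wp'_eq_zero hz)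
    · exact h
  have h0 : ∀ᶠ x in 𝓝[≠] z, deriv ℘'[L] x - wpp L x = 0 := by
    filter_upwards [hne, eventually_nhdsWithin_of_eventually_nhds (eventually_notMem hz)]
      with x hx hx'
    exact (mul_eq_zero.1 (hrel x hx')).resolve_left hx
  have h1 := (hD.frequently_zero_iff_eventually_zero.1 h0.frequently).self_of_nhds
  have h2 : HasDerivAt ℘'[L] (deriv ℘'[L] z) z := (analyticAt_wp' hz).differentiableAt.hasDerivAt
  rwa [sub_eq_zero.1 h1] at h2

/-- **Leaf B4.** The logarithmic derivative is unbounded at a zero (pure complex analysis).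
Recipe: `hf.exists_eventuallyEq_pow_smul_nonzero_iff.mpr hne` gives `f = (z - z₀)^m • g` near `z₀`,
`g` analytic, `g z₀ ≠ 0`; `m ≥ 1` because `f z₀ = 0`.  Then eventually
`deriv f z = m (z-z₀)^(m-1) g z + (z-z₀)^m deriv g z`; the inequality divided by `‖z-z₀‖^(m-1)` reads
`‖m g z + (z-z₀) deriv g z‖ ≤ C ‖z-z₀‖ ‖g z‖` on a punctured neighbourhood; let `z → z₀`
(`le_of_tendsto_of_tendsto`, `(𝓝[≠] z₀).NeBot`): `‖m g z₀‖ ≤ 0`, contradiction. -/
theorem not_deriv_le_of_zero {f : ℂ → ℂ} {z₀ : ℂ} (hf : AnalyticAt ℂ f z₀) (h0 : f z₀ = 0)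
    (hne : ¬ ∀ᶠ z in 𝓝 z₀, f z = 0) (C : ℝ) :
    ¬ ∀ᶠ z in 𝓝[≠] z₀, ‖deriv f z‖ ≤ C * ‖f z‖ := by
  intro hle
  obtain ⟨m, g, hg, hg0, hfg⟩ := hf.exists_eventuallyEq_pow_smul_nonzero_iff.mpr hne
  obtain ⟨k, rfl⟩ : ∃ k, m = k + 1 := by
    rcases m with _ | k
    · exfalso
      have h1 := hfg.self_of_nhds
      rw [h0, pow_zero, one_smul] at h1
      exact hg0 h1.symm
    · exact ⟨k, rfl⟩
  have hder : ∀ᶠ z in 𝓝 z₀,
      deriv f z = (z - z₀) ^ k * (((k : ℂ) + 1) * g z + (z - z₀) * deriv g z) := by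
    filter_upwards [hfg.eventually_nhds, hg.eventually_analyticAt] with z hz hgz
    have h1 : f =ᶠ[𝓝 z] fun w => (w - z₀) ^ (k + 1) * g w := by
      filter_upwards [hz] with w hw
      rw [hw, smul_eq_mul]
    rw [h1.deriv_eq]
    have h3 : HasDerivAt (fun w => w - z₀) 1 z := (hasDerivAt_id z).sub_const z₀
    have h2 := (h3.pow (k + 1)).mul hgz.differentiableAt.hasDerivAt
    have h4 : deriv (fun w => (w - z₀) ^ (k + 1) * g w) z = _ := h2.deriv
    rw [h4]
    simp only [Nat.add_sub_cancel, Pi.pow_apply]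
    push_cast
    ring
  have hineq : ∀ᶠ z in 𝓝[≠] z₀,
      ‖((k : ℂ) + 1) * g z + (z - z₀) * deriv g z‖ ≤ C * (‖z - z₀‖ * ‖g z‖) := by
    filter_upwards [hle, hder.filter_mono nhdsWithin_le_nhds, hfg.filter_mono nhdsWithin_le_nhds,
      self_mem_nhdsWithin] with z h1 h2 h3 h4
    have hz : 0 < ‖z - z₀‖ ^ k := pow_pos (norm_pos_iff.mpr (sub_ne_zero.mpr h4)) k
    rw [h2, h3, norm_mul, norm_smul, norm_pow, norm_pow, pow_succ] at h1
    have h5 : ‖z - z₀‖ ^ k * ‖((k : ℂ) + 1) * g z + (z - z₀) * deriv g z‖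
        ≤ ‖z - z₀‖ ^ k * (C * (‖z - z₀‖ * ‖g z‖)) := by
      calc _ ≤ _ := h1
        _ = _ := by ring
    exact le_of_mul_le_mul_left h5 hz
  have hgc := hg.continuousAt
  have hgd := hg.deriv.continuousAt
  have hl : Tendsto (fun z => ‖((k : ℂ) + 1) * g z + (z - z₀) * deriv g z‖) (𝓝[≠] z₀)
      (𝓝 ‖((k : ℂ) + 1) * g z₀ + (z₀ - z₀) * deriv g z₀‖) := by
    have hc : ContinuousAt (fun z => ‖((k : ℂ) + 1) * g z + (z - z₀) * deriv g z‖) z₀ := by
      fun_prop
    exact hc.tendsto.mono_left nhdsWithin_le_nhds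
  have hr : Tendsto (fun z => C * (‖z - z₀‖ * ‖g z‖)) (𝓝[≠] z₀)
      (𝓝 (C * (‖z₀ - z₀‖ * ‖g z₀‖))) := by
    have hc : ContinuousAt (fun z => C * (‖z - z₀‖ * ‖g z‖)) z₀ := by
      fun_prop
    exact hc.tendsto.mono_left nhdsWithin_le_nhds
  have hfin := le_of_tendsto_of_tendsto hl hr hineq
  rw [sub_self, zero_mul, add_zero, norm_zero, zero_mul, mul_zero] at hfin
  have h6 : ((k : ℂ) + 1) * g z₀ = 0 := norm_le_zero_iff.mp hfin
  rcases mul_eq_zero.mp h6 with h7 | h7
  · exact (Nat.cast_add_one_ne_zero k) h7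
  · exact hg0 h7

end Fermat.Agent.S15.M1.Wp
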