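import Fermat.Agent.S15.M1.Wp.AddY

/-!
# S15 / M1a : `z ↦ (℘ z, ℘' z / 2)` is a group homomorphism `ℂ → E_L(ℂ)` with kernel `L`

Block owner: helper82.  `WL L : y² = x³ - (g₂/4) x - g₃/4`.

Main results: `wpHom L : ℂ →+ (WL L).toAffine.Point`, `wpHom_apply_of_notMem`, `wpHom_eq_zero_iff`,
`wpHom_eq_iff`, `WL_Δ_ne_zero`, `nsmul_wpHom_eq_zero_iff`.
-/

set_option autoImplicit false

noncomputable section

namespace Fermat.Agent.S15.M1.Wp

open PeriodPair Filter Topology WeierstrassCurve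

/-- The Weierstrass curve `y² = x³ - (g₂/4) x - g₃/4` of a lattice. -/
def WL (L : PeriodPair) : WeierstrassCurve ℂ := ⟨0, 0, 0, -L.g₂ / 4, -L.g₃ / 4⟩

variable {L : PeriodPair}

@[simp] theorem WL_a₁ : (WL L).a₁ = 0 := rfl
@[simp] theorem WL_a₂ : (WL L).a₂ = 0 := rfl
@[simp] theorem WL_a₃ : (WL L).a₃ = 0 := rfl
@[simp] theorem WL_a₄ : (WL L).a₄ = -L.g₂ / 4 := rfl
@[simp] theorem WL_a₆ : (WL L).a₆ = -L.g₃ / 4 := rfl

theorem equation_wp {z : ℂ} (hz : z ∉ L.lattice) :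
    (WL L).toAffine.Equation (℘[L] z) (℘'[L] z / 2) := by
  rw [Affine.equation_iff]
  simp only [WL_a₁, WL_a₂, WL_a₃, WL_a₄, WL_a₆]
  linear_combination (1 / 4) * L.derivWeierstrassP_sq z hz

theorem nonsingular_wp {z : ℂ} (hz : z ∉ L.lattice) :
    (WL L).toAffine.Nonsingular (℘[L] z) (℘'[L] z / 2) := by
  rw [Affine.nonsingular_iff']
  refine ⟨equation_wp hz, ?_⟩
  simp only [WL_a₁, WL_a₂, WL_a₃, WL_a₄]
  by_cases h : ℘'[L] z = 0
  · left
    have := wpp_ne_zero_of_wp'_eq_zero hz h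
    intro h0
    apply this
    rw [wpp]
    linear_combination (-2) * h0
  · right
    intro h0
    apply h
    linear_combination h0

open Classical in
/-- The point `(℘ z, ℘' z / 2)`, `0` for `z ∈ L`. -/
def wpPt (L : PeriodPair) (z : ℂ) : (WL L).toAffine.Point :=
  if h : z ∈ L.lattice then 0 else .some _ _ (nonsingular_wp h)

theorem wpPt_of_mem {z : ℂ} (h : z ∈ L.lattice) : wpPt L z = 0 := dif_pos h

theorem wpPt_of_notMem {z : ℂ} (h : z ∉ L.lattice) : wpPt L z = .some _ _ (nonsingular_wp h) :=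
  dif_neg h

theorem wpPt_eq_zero_iff {z : ℂ} : wpPt L z = 0 ↔ z ∈ L.lattice := by
  constructor
  · intro h
    by_contra hz
    rw [wpPt_of_notMem hz] at h
    exact Affine.Point.some_ne_zero _ h
  · exact wpPt_of_mem

theorem some_congr {W : Affine ℂ} {x₁ x₂ y₁ y₂ : ℂ} (h₁ : W.Nonsingular x₁ y₁)
    (h₂ : W.Nonsingular x₂ y₂) (hx : x₁ = x₂) (hy : y₁ = y₂) :
    Affine.Point.some _ _ h₁ = Affine.Point.some _ _ h₂ := by
  subst hx hy; rfl

theorem wpPt_add_of_mem {z l : ℂ} (hl : l ∈ L.lattice) : wpPt L (z + l) = wpPt L z := by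
  by_cases hz : z ∈ L.lattice
  · rw [wpPt_of_mem hz, wpPt_of_mem (add_mem hz hl)]
  · have hz' : z + l ∉ L.lattice := fun h => hz (by simpa using sub_mem h hl)
    rw [wpPt_of_notMem hz, wpPt_of_notMem hz']
    exact some_congr _ _ (L.weierstrassP_add_coe z ⟨l, hl⟩)
      (by rw [L.derivWeierstrassP_add_coe z ⟨l, hl⟩])

theorem wpPt_add_generic {z w : ℂ} (hz : z ∉ L.lattice) (hw : w ∉ L.lattice)
    (h : ℘[L] z ≠ ℘[L] w) : wpPt L (z + w) = wpPt L z + wpPt L w := by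
  rw [wpPt_of_notMem hz, wpPt_of_notMem hw, wpPt_of_notMem (add_notMem_of_wp_ne h),
    Affine.Point.add_of_X_ne h]
  have hs : (WL L).toAffine.slope (℘[L] z) (℘[L] w) (℘'[L] z / 2) (℘'[L] w / 2) = sl L z w := by
    rw [Affine.slope_of_X_ne h, sl]
  have hx : ℘[L] (z + w) = (WL L).toAffine.addX (℘[L] z) (℘[L] w)
      ((WL L).toAffine.slope (℘[L] z) (℘[L] w) (℘'[L] z / 2) (℘'[L] w / 2)) := by
    rw [hs, wp_add_sl hz hw h]
    simp [Affine.addX]
  refine some_congr _ _ hx ?_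
  rw [Affine.addY, Affine.negAddY, ← hx, hs, wp'_add_sl hz hw h]
  simp [Affine.negY]

theorem wpPt_two_mul {w : ℂ} (hw : w ∉ L.lattice) (h2 : 2 * w ∉ L.lattice) :
    wpPt L (2 * w) = wpPt L w + wpPt L w := by
  have hy0 : ℘'[L] w ≠ 0 := fun h => h2 ((wp'_eq_zero_iff hw).mp h)
  have hy : ℘'[L] w / 2 ≠ (WL L).toAffine.negY (℘[L] w) (℘'[L] w / 2) := by
    simp only [Affine.negY, WL_a₁, WL_a₃]
    intro h
    apply hy0
    linear_combination h
  rw [wpPt_of_notMem hw, wpPt_of_notMem h2, Affine.Point.add_self_of_Y_ne hy]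
  have hs : (WL L).toAffine.slope (℘[L] w) (℘[L] w) (℘'[L] w / 2) (℘'[L] w / 2) = tl L w := by
    rw [Affine.slope_of_Y_ne rfl hy, tl, wpp]
    simp only [Affine.negY, WL_a₁, WL_a₂, WL_a₃, WL_a₄]
    have e : ℘'[L] w / 2 - (-(℘'[L] w / 2) - 0 * ℘[L] w - 0) = ℘'[L] w := by ring
    rw [e, div_eq_div_iff hy0 (mul_ne_zero two_ne_zero hy0)]
    ring
  have hx : ℘[L] (2 * w) = (WL L).toAffine.addX (℘[L] w) (℘[L] w)
      ((WL L).toAffine.slope (℘[L] w) (℘[L] w) (℘'[L] w / 2) (℘'[L] w / 2)) := by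
    rw [hs, wp_two_mul hw h2]
    simp [Affine.addX]
  refine some_congr _ _ hx ?_
  rw [Affine.addY, Affine.negAddY, ← hx, hs, wp'_two_mul hw h2]
  simp [Affine.negY]

theorem wpPt_add (z w : ℂ) : wpPt L (z + w) = wpPt L z + wpPt L w := by
  by_cases hz : z ∈ L.lattice
  · rw [wpPt_of_mem hz, zero_add, add_comm, wpPt_add_of_mem hz]
  by_cases hw : w ∈ L.lattice
  · rw [wpPt_of_mem hw, add_zero, wpPt_add_of_mem hw]
  by_cases h : ℘[L] z = ℘[L] w
  · rcases (wp_eq_iff hz hw).mp h with h1 | h1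
    · -- `z = w + l`
      have e : z = w + (z - w) := by ring
      have e1 : wpPt L z = wpPt L w := by rw [e, wpPt_add_of_mem h1]
      have e2 : wpPt L (z + w) = wpPt L (2 * w) := by
        have : z + w = 2 * w + (z - w) := by ring
        rw [this, wpPt_add_of_mem h1]
      rw [e1, e2]
      by_cases h2 : 2 * w ∈ L.lattice
      · rw [wpPt_of_mem h2, wpPt_of_notMem hw, Affine.Point.add_self_of_Y_eq]
        simp only [Affine.negY, WL_a₁, WL_a₃]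
        rw [(wp'_eq_zero_iff hw).mpr h2]
        simp
      · exact wpPt_two_mul hw h2
    · rw [wpPt_of_mem h1, wpPt_of_notMem hz, wpPt_of_notMem hw, Affine.Point.add_of_Y_eq h]
      simp only [Affine.negY, WL_a₁, WL_a₃]
      have e : z = -w + (⟨z + w, h1⟩ : L.lattice) := by simp
      rw [e, L.derivWeierstrassP_add_coe, L.derivWeierstrassP_neg]
      ring
  · exact wpPt_add_generic hz hw h

/-- **The complex uniformisation** `ℂ → E_L(ℂ)`, a group homomorphism with kernel `L`. -/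
def wpHom (L : PeriodPair) : ℂ →+ (WL L).toAffine.Point where
  toFun := wpPt L
  map_zero' := wpPt_of_mem (zero_mem _)
  map_add' := wpPt_add

theorem wpHom_apply_of_notMem {z : ℂ} (h : z ∉ L.lattice) :
    wpHom L z = .some _ _ (nonsingular_wp h) := wpPt_of_notMem h

theorem wpHom_eq_zero_iff {z : ℂ} : wpHom L z = 0 ↔ z ∈ L.lattice := wpPt_eq_zero_iff

theorem wpHom_eq_iff {z w : ℂ} : wpHom L z = wpHom L w ↔ z - w ∈ L.lattice := by
  rw [← wpHom_eq_zero_iff, map_sub, sub_eq_zero]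

theorem nsmul_wpHom_eq_zero_iff {n : ℕ} {z : ℂ} : n • wpHom L z = 0 ↔ (n : ℂ) * z ∈ L.lattice := by
  rw [← map_nsmul, wpHom_eq_zero_iff, nsmul_eq_mul]

/-- rational combinations of the periods with a non-integral coefficient are not in the lattice. -/
theorem Hom_notMem (L : PeriodPair) (α β : ℚ) (h : ¬(α.den = 1 ∧ β.den = 1)) {x : ℂ}
    (hx : x = α * L.ω₁ + β * L.ω₂) : x ∉ L.lattice := by
  rw [hx]
  exact (L.mul_ω₁_add_mul_ω₂_mem_lattice (α := α) (β := β)).not.mpr h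

/-- a cubic `4x³ - g₂x - g₃` with three distinct roots has nonzero discriminant. -/
theorem Hom_disc_alg (e₁ e₂ e₃ g₂ g₃ : ℂ) (h1 : 4 * e₁ ^ 3 - g₂ * e₁ - g₃ = 0)
    (h2 : 4 * e₂ ^ 3 - g₂ * e₂ - g₃ = 0) (h3 : 4 * e₃ ^ 3 - g₂ * e₃ - g₃ = 0)
    (h12 : e₁ ≠ e₂) (h13 : e₁ ≠ e₃) (h23 : e₂ ≠ e₃) : g₂ ^ 3 - 27 * g₃ ^ 2 ≠ 0 := by
  have a : g₂ = 4 * (e₁ ^ 2 + e₁ * e₂ + e₂ ^ 2) := by
    have : (e₁ - e₂) * (4 * (e₁ ^ 2 + e₁ * e₂ + e₂ ^ 2) - g₂) = 0 := by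
      linear_combination h1 - h2
    rcases mul_eq_zero.1 this with h | h
    · exact absurd (sub_eq_zero.1 h) h12
    · linear_combination -h
  have b : g₂ = 4 * (e₁ ^ 2 + e₁ * e₃ + e₃ ^ 2) := by
    have : (e₁ - e₃) * (4 * (e₁ ^ 2 + e₁ * e₃ + e₃ ^ 2) - g₂) = 0 := by
      linear_combination h1 - h3
    rcases mul_eq_zero.1 this with h | h
    · exact absurd (sub_eq_zero.1 h) h13
    · linear_combination -h
  have c : e₃ = -e₁ - e₂ := by
    have : (e₂ - e₃) * (e₁ + e₂ + e₃) = 0 := by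
      linear_combination (1 / 4) * b - (1 / 4) * a
    rcases mul_eq_zero.1 this with h | h
    · exact absurd (sub_eq_zero.1 h) h23
    · linear_combination h
  have d : g₃ = 4 * e₁ ^ 3 - g₂ * e₁ := by linear_combination -h1
  have e : g₂ ^ 3 - 27 * g₃ ^ 2 = 16 * ((e₁ - e₂) * (e₁ - e₃) * (e₂ - e₃)) ^ 2 := by
    rw [d, a, c]
    ring
  rw [e]
  exact mul_ne_zero (by norm_num) (pow_ne_zero 2 (mul_ne_zero (mul_ne_zero (sub_ne_zero.2 h12)
    (sub_ne_zero.2 h13)) (sub_ne_zero.2 h23)))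

/-- **Leaf F6** (algebra). Recipe: `e₁ = ℘ (ω₁/2)`, `e₂ = ℘ (ω₂/2)`, `e₃ = ℘ ((ω₁+ω₂)/2)` are pairwise distinct by
`wp_eq_iff` (the differences and sums `ω₁/2 ± ω₂/2`, `ω₁ + ω₂/2`, … are not in `L`:
`mul_ω₁_add_mul_ω₂_mem_lattice` with rational coefficients, as in
`PeriodPair.ω₁_div_two_notMem_lattice`), and are roots of `4x³ - g₂x - g₃` by
`L.derivWeierstrassP_sq` and `(wp'_eq_zero_iff _).mpr` (`2 * (ω/2) = ω ∈ L`).  Three distinct roots:
subtracting the equations, `g₂ = 4(e₁²+e₁e₂+e₂²)`, `e₃ = -e₁-e₂`, and then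
`g₂³ - 27 g₃² = 16 ((e₁-e₂)(e₁-e₃)(e₂-e₃))² ≠ 0`.  `(WL L).Δ = g₂³ - 27 g₃²` by
`simp [WeierstrassCurve.Δ, b₂, b₄, b₆, b₈]; ring`. -/
theorem WL_Δ_ne_zero (L : PeriodPair) : (WL L).Δ ≠ 0 := by
  have hΔ : (WL L).Δ = L.g₂ ^ 3 - 27 * L.g₃ ^ 2 := by
    simp [WeierstrassCurve.Δ, b₂, b₄, b₆, b₈]
    ring
  rw [hΔ]
  have ha : L.ω₁ / 2 ∉ L.lattice := L.ω₁_div_two_notMem_lattice
  have hb : L.ω₂ / 2 ∉ L.lattice := L.ω₂_div_two_notMem_lattice
  have hc : (L.ω₁ + L.ω₂) / 2 ∉ L.lattice :=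
    Hom_notMem L (1 / 2) (1 / 2) (by norm_num) (by push_cast; ring)
  have root : ∀ z : ℂ, z ∉ L.lattice → 2 * z ∈ L.lattice →
      4 * ℘[L] z ^ 3 - L.g₂ * ℘[L] z - L.g₃ = 0 := by
    intro z hz h2
    have h := L.derivWeierstrassP_sq z hz
    rw [(wp'_eq_zero_iff hz).mpr h2] at h
    linear_combination -h
  have e1 : 2 * (L.ω₁ / 2) = L.ω₁ := by ring
  have e2 : 2 * (L.ω₂ / 2) = L.ω₂ := by ring
  have e3 : 2 * ((L.ω₁ + L.ω₂) / 2) = L.ω₁ + L.ω₂ := by ring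
  refine Hom_disc_alg _ _ _ _ _ (root _ ha (by rw [e1]; exact L.ω₁_mem_lattice))
    (root _ hb (by rw [e2]; exact L.ω₂_mem_lattice))
    (root _ hc (by rw [e3]; exact add_mem L.ω₁_mem_lattice L.ω₂_mem_lattice)) ?_ ?_ ?_
  · intro h
    rcases (wp_eq_iff ha hb).mp h with h | h
    · exact Hom_notMem L (1 / 2) (-1 / 2) (by norm_num) (by push_cast; ring) h
    · exact Hom_notMem L (1 / 2) (1 / 2) (by norm_num) (by push_cast; ring) h
  · intro h
    rcases (wp_eq_iff ha hc).mp h with h | h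
    · exact Hom_notMem L 0 (-1 / 2) (by norm_num) (by push_cast; ring) h
    · exact Hom_notMem L 1 (1 / 2) (by norm_num) (by push_cast; ring) h
  · intro h
    rcases (wp_eq_iff hb hc).mp h with h | h
    · exact Hom_notMem L (-1 / 2) 0 (by norm_num) (by push_cast; ring) h
    · exact Hom_notMem L (1 / 2) 1 (by norm_num) (by push_cast; ring) h

end Fermat.Agent.S15.M1.Wp
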